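import Fermat.Agent.Gamma0Comb.Index

set_option autoImplicit false

/-!
# Orbits of `T` on `SL(2,ℤ) / Γ₀(N)`: the number of cusps
-/

open CongruenceSubgroup Finset ModularCurve
open scoped MatrixGroups

namespace Fermat.Agent.Gamma0Comb

section Burnside

variable {G Y : Type*} [Group G] [MulAction G Y]

/-- The homomorphism `ZMod N → Perm Y` given by `g`, if `g ^ N` acts trivially. -/
noncomputable def zmodHom (N : ℕ) (σ : Equiv.Perm Y) (hσ : σ ^ N = 1) :
    Multiplicative (ZMod N) →* Equiv.Perm Y :=
  AddMonoidHom.toMultiplicativeLeft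
    (ZMod.lift N ⟨zmultiplesHom (Additive (Equiv.Perm Y)) (Additive.ofMul σ), by
      rw [zmultiplesHom_apply, natCast_zsmul, ← ofMul_pow, hσ]; rfl⟩)

lemma zmodHom_natCast (N : ℕ) (σ : Equiv.Perm Y) (hσ : σ ^ N = 1) (j : ℕ) :
    zmodHom N σ hσ (Multiplicative.ofAdd (j : ZMod N)) = σ ^ j := by
  have h : ((j : ZMod N)) = (((j : ℤ)) : ZMod N) := by simp
  change Additive.toMul ((ZMod.lift N ⟨zmultiplesHom (Additive (Equiv.Perm Y)) (Additive.ofMul σ),
    _⟩) (j : ZMod N)) = σ ^ j
  rw [h, ZMod.lift_coe]
  simp only [zmultiplesHom_apply, natCast_zsmul]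
  rfl

/-- Burnside's lemma for a cyclic group. -/
theorem burnside_pow [Finite Y] (g : G) (N : ℕ) [NeZero N] (hg : ∀ y : Y, g ^ N • y = y) :
    ∑ j ∈ range N, Nat.card (MulAction.fixedBy Y (g ^ j)) =
      N * Nat.card (MulAction.orbitRel.Quotient (Subgroup.zpowers g) Y) := by
  classical
  have : Fintype Y := Fintype.ofFinite Y
  set σ : Equiv.Perm Y := MulAction.toPerm g with hσdef
  have hpow : ∀ (k : ℕ) (y : Y), (σ ^ k) y = g ^ k • y := by
    intro k y
    have : σ ^ k = MulAction.toPerm (g ^ k) := by
      rw [hσdef, ← MulAction.toPermHom_apply, ← MulAction.toPermHom_apply, map_pow]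
    rw [this]; rfl
  have hσ : σ ^ N = 1 := by
    ext y; rw [hpow, hg]; rfl
  let _ : MulAction (Multiplicative (ZMod N)) Y := MulAction.compHom Y (zmodHom N σ hσ)
  have hact : ∀ (j : ℕ) (y : Y), (Multiplicative.ofAdd (j : ZMod N)) • y = g ^ j • y := by
    intro j y
    change (zmodHom N σ hσ (Multiplicative.ofAdd (j : ZMod N))) y = _
    rw [zmodHom_natCast, hpow]
  have hB := MulAction.sum_card_fixedBy_eq_card_orbits_mul_card_group
    (Multiplicative (ZMod N)) Y
  have h1 : ∑ j ∈ range N, Nat.card (MulAction.fixedBy Y (g ^ j)) =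
      ∑ a : Multiplicative (ZMod N), Fintype.card (MulAction.fixedBy Y a) := by
    rw [← sum_zmod (fun j => Nat.card (MulAction.fixedBy Y (g ^ j)))]
    refine Fintype.sum_equiv Multiplicative.ofAdd _ _ fun y => ?_
    rw [← Nat.card_eq_fintype_card]
    congr 1
    have : MulAction.fixedBy Y (g ^ y.val) =
        MulAction.fixedBy Y (Multiplicative.ofAdd y : Multiplicative (ZMod N)) := by
      ext z
      rw [MulAction.mem_fixedBy, MulAction.mem_fixedBy, ← hact, ZMod.natCast_zmod_val]
    rw [this]
  rw [h1, hB, mul_comm]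
  congr 1
  · rw [Fintype.card_multiplicative, ZMod.card]
  · rw [← Nat.card_eq_fintype_card]
    have hrel : MulAction.orbitRel (Multiplicative (ZMod N)) Y =
        MulAction.orbitRel (Subgroup.zpowers g) Y := by
      ext x y
      rw [MulAction.orbitRel_apply, MulAction.orbitRel_apply, MulAction.mem_orbit_iff,
        MulAction.mem_orbit_iff]
      constructor
      · rintro ⟨a, ha⟩
        obtain ⟨z, rfl⟩ := Multiplicative.ofAdd.surjective a
        rw [← ZMod.natCast_zmod_val z, hact] at ha
        exact ⟨⟨g ^ z.val, Subgroup.npow_mem_zpowers g _⟩, ha⟩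
      · rintro ⟨⟨h, hh⟩, ha⟩
        obtain ⟨k, rfl⟩ := Subgroup.mem_zpowers_iff.mp hh
        change g ^ k • y = x at ha
        have hk : ∃ j : ℕ, g ^ j • y = g ^ k • y := by
          refine ⟨(k % N).toNat, ?_⟩
          have hN0 : (N : ℤ) ≠ 0 := by exact_mod_cast NeZero.ne N
          have h2 : (((k % N).toNat : ℕ) : ℤ) = k % N := Int.toNat_of_nonneg (Int.emod_nonneg _ hN0)
          have hgN : ∀ (m : ℤ) (y : Y), (g ^ N) ^ m • y = y := by
            intro m y
            have h3 : g ^ N ∈ MulAction.stabilizer G y := hg y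
            exact (MulAction.stabilizer G y).zpow_mem h3 m
          have h4 : g ^ k = g ^ (k % N) * (g ^ N) ^ (k / N) := by
            rw [← zpow_natCast g N, ← zpow_mul, ← zpow_add, Int.emod_add_mul_ediv]
          rw [h4, mul_smul, hgN]
          conv_rhs => rw [← h2, zpow_natCast]
        obtain ⟨j, hj⟩ := hk
        refine ⟨Multiplicative.ofAdd (j : ZMod N), ?_⟩
        rw [hact, hj, ha]
    unfold MulAction.orbitRel.Quotient
    rw [hrel]

/-- Invariant functions have dimension the number of orbits. -/
theorem finrank_invariants {K : Type*} [Field K] [Finite Y] (g : G) (V : Submodule K (Y → K))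
    (hV : ∀ v, v ∈ V ↔ ∀ x, v (g • x) = v x) :
    Module.finrank K V = Nat.card (MulAction.orbitRel.Quotient (Subgroup.zpowers g) Y) := by
  classical
  have : Fintype Y := Fintype.ofFinite Y
  have : Finite (MulAction.orbitRel.Quotient (Subgroup.zpowers g) Y) := Quotient.finite _
  have : Fintype (MulAction.orbitRel.Quotient (Subgroup.zpowers g) Y) := Fintype.ofFinite _
  set π : Y → MulAction.orbitRel.Quotient (Subgroup.zpowers g) Y := Quotient.mk'' with hπ
  have hπs : Function.Surjective π := Quotient.mk''_surjective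
  have hinj : Function.Injective (LinearMap.funLeft K K π) :=
    LinearMap.funLeft_injective_of_surjective K K π hπs
  have hrange : LinearMap.range (LinearMap.funLeft K K π) = V := by
    ext v
    rw [hV]
    constructor
    · rintro ⟨w, rfl⟩ x
      simp only [LinearMap.funLeft_apply]
      congr 1
      apply Quotient.sound'
      rw [MulAction.orbitRel_apply, MulAction.mem_orbit_iff]
      exact ⟨⟨g, Subgroup.mem_zpowers g⟩, rfl⟩
    · intro hv
      let H : Subgroup G :=
        { carrier := {h | ∀ x : Y, v (h • x) = v x}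
          mul_mem' := by
            intro a b ha hb x
            rw [mul_smul, ha, hb]
          one_mem' := by intro x; rw [one_smul]
          inv_mem' := by
            intro a ha x
            rw [← ha (a⁻¹ • x), smul_inv_smul] }
      have hH : Subgroup.zpowers g ≤ H := by
        rw [Subgroup.zpowers_le]; exact hv
      refine ⟨Quotient.lift v ?_, ?_⟩
      · intro a b hab
        obtain ⟨⟨h, hh⟩, rfl⟩ := hab
        exact hH hh b
      · ext x; rfl
  rw [← hrange, LinearMap.finrank_range_of_inj hinj, Module.finrank_fintype_fun_eq_card,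
    Nat.card_eq_fintype_card]

end Burnside

variable (N : ℕ) [NeZero N]

lemma T_pow_N_smul (x : X N) : ModularGroup.T ^ N • x = x := by
  obtain ⟨g, rfl⟩ := QuotientGroup.mk_surjective x
  rw [smul_T_pow_iff]
  simp

/-- The number of `T`-orbits on the cosets is the number of cusps. -/
theorem card_orbits_T :
    Nat.card (MulAction.orbitRel.Quotient (Subgroup.zpowers ModularGroup.T) (X N)) =
      cuspCount N := by
  have h1 := burnside_pow (Y := X N) ModularGroup.T N (T_pow_N_smul N)
  rw [sum_card_fixedBy_T] at h1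
  exact (Nat.eq_of_mul_eq_mul_left (NeZero.pos N) h1).symm

/-- The `T`-invariant functions on the cosets. -/
theorem finrank_invariants_T {K : Type*} [Field K] (V : Submodule K (X N → K))
    (hV : ∀ v, v ∈ V ↔ ∀ x, v (ModularGroup.T • x) = v x) :
    Module.finrank K V = cuspCount N := by
  exact (finrank_invariants ModularGroup.T V hV).trans (card_orbits_T N)

theorem card_fixedPoints_S :
    Nat.card (Function.fixedPoints (fun x : X N => ModularGroup.S • x)) = nuTwo N :=
  card_fixedBy_S

theorem card_fixedPoints_ST :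
    Nat.card (Function.fixedPoints (fun x : X N => (ModularGroup.S * ModularGroup.T) • x)) =
      nuThree N :=
  card_fixedBy_ST

end Fermat.Agent.Gamma0Comb
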