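import Mathlib
import Fermat.Prelude.Def_ModularCurve_GenusNumerics

set_option autoImplicit false

/-!
# Cosets of `Γ₀(N)` and unimodular pairs modulo `N`

`X N = SL(2,ℤ) ⧸ Γ₀(N)` is the projective line over `ZMod N`: the coset of `g` is determined by
its first column modulo `N`, up to units.
-/

open CongruenceSubgroup Finset
open scoped MatrixGroups

namespace Fermat.Agent.Gamma0Comb

variable {N : ℕ}

/-- The coset space `SL(2,ℤ) / Γ₀(N)`. -/
abbrev X (N : ℕ) : Type := SL(2, ℤ) ⧸ Gamma0 N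

/-- The first column modulo `N`. -/
def col (N : ℕ) (g : SL(2, ℤ)) : ZMod N × ZMod N := ((g 0 0 : ℤ), (g 1 0 : ℤ))

@[simp] lemma col_fst (g : SL(2, ℤ)) : (col N g).1 = ((g 0 0 : ℤ) : ZMod N) := rfl
@[simp] lemma col_snd (g : SL(2, ℤ)) : (col N g).2 = ((g 1 0 : ℤ) : ZMod N) := rfl

lemma det_eq (g : SL(2, ℤ)) : g 0 0 * g 1 1 - g 0 1 * g 1 0 = 1 := by
  have := g.det_coe
  rwa [Matrix.det_fin_two] at this

lemma isCoprime_col (g : SL(2, ℤ)) : IsCoprime (col N g).1 (col N g).2 := by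
  refine ⟨((g 1 1 : ℤ) : ZMod N), -((g 0 1 : ℤ) : ZMod N), ?_⟩
  have h := congrArg (Int.cast : ℤ → ZMod N) (det_eq g)
  push_cast at h
  simp only [col_fst, col_snd]
  linear_combination h

/-- An integer lift of a unimodular pair modulo `N` to a coprime pair of integers. -/
lemma exists_coprime_lift [NeZero N] (v : ZMod N × ZMod N) (hv : IsCoprime v.1 v.2) :
    ∃ a c : ℤ, IsCoprime a c ∧ ((a : ℤ) : ZMod N) = v.1 ∧ ((c : ℤ) : ZMod N) = v.2 := by
  obtain ⟨x, y⟩ := v
  simp only at hv ⊢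
  -- lifts
  obtain ⟨a₀, ha₀⟩ : ∃ a₀ : ℤ, (a₀ : ZMod N) = x := ZMod.intCast_surjective x
  obtain ⟨c, hc0, hc⟩ : ∃ c : ℤ, c ≠ 0 ∧ (c : ZMod N) = y := by
    obtain ⟨c₀, hc₀⟩ := ZMod.intCast_surjective y
    by_cases h : c₀ = 0
    · refine ⟨N, by exact_mod_cast NeZero.ne N, ?_⟩
      rw [← hc₀, h]; simp
    · exact ⟨c₀, h, hc₀⟩
  -- gcd(a₀, c, N) = 1
  obtain ⟨r, s, hrs⟩ := hv
  obtain ⟨r', hr'⟩ := ZMod.intCast_surjective r
  obtain ⟨s', hs'⟩ := ZMod.intCast_surjective s
  have h1 : ((r' * a₀ + s' * c - 1 : ℤ) : ZMod N) = 0 := by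
    push_cast; rw [hr', hs', ha₀, hc, hrs]; ring
  rw [ZMod.intCast_zmod_eq_zero_iff_dvd] at h1
  obtain ⟨m, hm⟩ := h1
  -- choose t = product of the primes dividing c but not a₀
  set P : Finset ℕ := c.natAbs.primeFactors.filter (fun p => ¬ (p : ℤ) ∣ a₀) with hP
  set t : ℤ := ∏ p ∈ P, (p : ℤ) with ht
  refine ⟨a₀ + t * N, c, ?_, by push_cast; rw [ha₀]; simp, hc⟩
  rw [Int.isCoprime_iff_gcd_eq_one]
  by_contra hne
  obtain ⟨p, hp, hpd⟩ := Nat.exists_prime_and_dvd hne
  have hpc : (p : ℤ) ∣ c := (Int.natCast_dvd_natCast.mpr hpd).trans (Int.gcd_dvd_right _ _)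
  have hpa : (p : ℤ) ∣ a₀ + t * N := (Int.natCast_dvd_natCast.mpr hpd).trans (Int.gcd_dvd_left _ _)
  have hpP : Prime (p : ℤ) := Nat.prime_iff_prime_int.mp hp
  by_cases hpa₀ : (p : ℤ) ∣ a₀
  · -- then p | t * N
    have h2 : (p : ℤ) ∣ t * N := by
      have := dvd_sub hpa hpa₀
      simpa using this
    rcases hpP.dvd_or_dvd h2 with h3 | h3
    · rw [ht, hpP.dvd_finsetProd_iff] at h3
      obtain ⟨q, hq, hpq⟩ := h3
      rw [hP, Finset.mem_filter, Nat.mem_primeFactors] at hq
      have : p = q := (Nat.prime_dvd_prime_iff_eq hp hq.1.1).mp (by exact_mod_cast hpq)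
      subst this
      exact hq.2 hpa₀
    · apply hpP.not_isUnit
      rw [isUnit_iff_dvd_one]
      have : (1 : ℤ) = r' * a₀ + s' * c - N * m := by rw [← hm]; ring
      rw [this]
      exact dvd_sub (dvd_add (hpa₀.mul_left _) (hpc.mul_left _)) (h3.mul_right _)
  · have h3 : (p : ℤ) ∣ t := by
      rw [ht]
      apply Finset.dvd_prod_of_mem (f := fun p : ℕ => (p : ℤ))
      rw [hP, Finset.mem_filter, Nat.mem_primeFactors]
      refine ⟨⟨hp, Int.natCast_dvd.mp hpc, by simpa using hc0⟩, hpa₀⟩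
    apply hpa₀
    have := dvd_sub hpa (h3.mul_right (N : ℤ))
    simpa using this

lemma exists_col_eq [NeZero N] (v : ZMod N × ZMod N) (hv : IsCoprime v.1 v.2) :
    ∃ g : SL(2, ℤ), col N g = v := by
  obtain ⟨a, c, hac, ha, hc⟩ := exists_coprime_lift v hv
  obtain ⟨g, hg⟩ := IsCoprime.exists_SL2_col hac 0
  refine ⟨g, ?_⟩
  ext
  · simp [hg.1, ha]
  · simp [hg.2, hc]

/-- The coset equality in terms of the first columns: cross product. -/
lemma mk_eq_iff_cross (g h : SL(2, ℤ)) :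
    (g : X N) = (h : X N) ↔ (col N g).1 * (col N h).2 - (col N h).1 * (col N g).2 = 0 := by
  rw [QuotientGroup.eq, Gamma0_mem]
  have : ((g⁻¹ * h : SL(2, ℤ)) 1 0 : ℤ) = - g 1 0 * h 0 0 + g 0 0 * h 1 0 := by
    rw [Matrix.SpecialLinearGroup.coe_mul, Matrix.mul_apply, Fin.sum_univ_two,
      Matrix.SpecialLinearGroup.coe_inv, Matrix.adjugate_fin_two]
    simp
  rw [this]
  simp only [col_fst, col_snd]
  push_cast
  constructor <;> intro h1 <;> linear_combination h1

/-- The coset equality in terms of the first columns: proportionality by a unit. -/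
lemma mk_eq_iff_unit (g h : SL(2, ℤ)) :
    (g : X N) = (h : X N) ↔ ∃ u : (ZMod N)ˣ, col N h = ((u : ZMod N) * (col N g).1,
      (u : ZMod N) * (col N g).2) := by
  rw [mk_eq_iff_cross]
  constructor
  · intro h0
    obtain ⟨r, s, hrs⟩ := isCoprime_col (N := N) g
    obtain ⟨r', s', hrs'⟩ := isCoprime_col (N := N) h
    have h1 : (col N h).1 = (r * (col N h).1 + s * (col N h).2) * (col N g).1 := by
      linear_combination (- (col N h).1) * hrs - s * h0
    have h2 : (col N h).2 = (r * (col N h).1 + s * (col N h).2) * (col N g).2 := by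
      linear_combination (- (col N h).2) * hrs + r * h0
    have hu : IsUnit (r * (col N h).1 + s * (col N h).2) := by
      rw [isUnit_iff_dvd_one, ← hrs']
      refine dvd_add ?_ ?_
      · conv_rhs => rw [h1]
        exact (dvd_mul_right _ _).mul_left _
      · conv_rhs => rw [h2]
        exact (dvd_mul_right _ _).mul_left _
    obtain ⟨u, hu⟩ := hu
    refine ⟨u, ?_⟩
    rw [hu]
    exact Prod.ext h1 h2
  · rintro ⟨u, hu⟩
    rw [hu]
    simp only
    ring

instance instFiniteX [NeZero N] : Finite (X N) := inferInstance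

noncomputable instance instFintypeX [NeZero N] : Fintype (X N) := Fintype.ofFinite _

open Classical in
/-- The unimodular pairs modulo `N`. -/
noncomputable def Uf (N : ℕ) [NeZero N] : Finset (ZMod N × ZMod N) :=
  Finset.univ.filter (fun v => IsCoprime v.1 v.2)

lemma mem_Uf [NeZero N] {v : ZMod N × ZMod N} : v ∈ Uf N ↔ IsCoprime v.1 v.2 := by
  simp [Uf]

open Classical in
/-- The coset of a unimodular pair. -/
noncomputable def toX [NeZero N] (v : ZMod N × ZMod N) : X N :=
  if hv : IsCoprime v.1 v.2 then ((exists_col_eq v hv).choose : SL(2, ℤ)) else ((1 : SL(2, ℤ)) : X N)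

lemma toX_col [NeZero N] (g : SL(2, ℤ)) : toX (col N g) = (g : X N) := by
  have h := (exists_col_eq (col N g) (isCoprime_col g)).choose_spec
  rw [toX, dif_pos (isCoprime_col g), mk_eq_iff_cross, h]
  ring

lemma exists_toX_eq [NeZero N] {v : ZMod N × ZMod N} (hv : IsCoprime v.1 v.2) :
    ∃ g : SL(2, ℤ), col N g = v ∧ toX v = (g : X N) := by
  obtain ⟨g, rfl⟩ := exists_col_eq v hv
  exact ⟨g, rfl, toX_col g⟩

open Classical in
lemma card_fiber [NeZero N] (x : X N) :
    ((Uf N).filter (fun v => toX v = x)).card = Nat.totient N := by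
  obtain ⟨g, rfl⟩ := QuotientGroup.mk_surjective x
  rw [← ZMod.card_units_eq_totient, ← Finset.card_univ]
  symm
  apply Finset.card_bij (fun (u : (ZMod N)ˣ) _ => ((u : ZMod N) * (col N g).1,
      (u : ZMod N) * (col N g).2))
  · intro u _
    rw [Finset.mem_filter, mem_Uf]
    have h1 : IsCoprime ((u : ZMod N) * (col N g).1) ((u : ZMod N) * (col N g).2) := by
      rw [isCoprime_mul_unit_left_left u.isUnit, isCoprime_mul_unit_left_right u.isUnit]
      exact isCoprime_col g
    refine ⟨h1, ?_⟩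
    obtain ⟨h, hh, hx⟩ := exists_toX_eq (v := ((u : ZMod N) * (col N g).1,
      (u : ZMod N) * (col N g).2)) h1
    rw [hx]
    exact ((mk_eq_iff_unit g h).mpr ⟨u, hh⟩).symm
  · intro u _ v _ h
    rw [Prod.mk.injEq] at h
    obtain ⟨r, s, hrs⟩ := isCoprime_col (N := N) g
    ext
    linear_combination (-(u : ZMod N) + v) * hrs + r * h.1 + s * h.2
  · intro v hv
    rw [Finset.mem_filter, mem_Uf] at hv
    obtain ⟨h, hh, hx⟩ := exists_toX_eq hv.1
    rw [hx] at hv
    obtain ⟨u, hu⟩ := (mk_eq_iff_unit g h).mp hv.2.symm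
    exact ⟨u, Finset.mem_univ _, by rw [← hu, hh]⟩

/-- Summation over cosets via unimodular pairs. -/
theorem sum_Uf [NeZero N] (F : X N → ℕ) (G : ZMod N × ZMod N → ℕ)
    (h : ∀ g : SL(2, ℤ), F (g : X N) = G (col N g)) :
    ∑ v ∈ Uf N, G v = Nat.totient N * ∑ x : X N, F x := by
  classical
  have h1 : ∑ v ∈ Uf N, G v = ∑ v ∈ Uf N, F (toX v) := by
    refine Finset.sum_congr rfl fun v hv => ?_
    rw [mem_Uf] at hv
    obtain ⟨g, hg, hx⟩ := exists_toX_eq hv
    rw [hx, h, hg]
  rw [h1, ← Finset.sum_fiberwise (Uf N) (fun v => toX v), Finset.mul_sum]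
  refine Finset.sum_congr rfl fun x _ => ?_
  rw [Finset.sum_congr rfl (g := fun _ => F x), Finset.sum_const, card_fiber, smul_eq_mul]
  intro v hv
  rw [(Finset.mem_filter.mp hv).2]

/-- Counting cosets via unimodular pairs. -/
theorem card_Uf_filter [NeZero N] (p : X N → Prop) (q : ZMod N × ZMod N → Prop)
    [DecidablePred q] (h : ∀ g : SL(2, ℤ), p (g : X N) ↔ q (col N g)) :
    ((Uf N).filter q).card = Nat.totient N * Nat.card {x : X N // p x} := by
  classical
  have h1 := sum_Uf (fun x => if p x then 1 else 0) (fun v => if q v then 1 else 0)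
    (fun g => by simp [h g])
  rw [Finset.card_filter, h1, ← Finset.card_filter, Nat.card_eq_fintype_card,
    Fintype.card_subtype]

end Fermat.Agent.Gamma0Comb
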