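import Fermat.Agent.Gamma0Comb.Elliptic

set_option autoImplicit false

/-!
# Fixed points of `T ^ j` on `SL(2,ℤ) / Γ₀(N)`; sums over the second coordinate
-/

open CongruenceSubgroup Finset ModularCurve
open scoped MatrixGroups

namespace Fermat.Agent.Gamma0Comb

variable {N : ℕ}

lemma sum_zmod [NeZero N] (f : ℕ → ℕ) : ∑ y : ZMod N, f y.val = ∑ k ∈ range N, f k := by
  refine Finset.sum_bij (fun y _ => y.val) (fun y _ => by
    simpa using ZMod.val_lt y) (fun a _ b _ h => ZMod.val_injective N h)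
    (fun k hk => ⟨(k : ZMod N), mem_univ _, ZMod.val_cast_of_lt (by simpa using hk)⟩)
    (fun _ _ => rfl)

lemma isCoprime_iff_gcd [NeZero N] (x y : ZMod N) :
    IsCoprime x y ↔ (Nat.gcd N y.val).Coprime x.val := by
  constructor
  · rintro ⟨r, s, h⟩
    rw [Nat.coprime_iff_gcd_eq_one, ← Nat.dvd_one]
    set d := Nat.gcd (Nat.gcd N y.val) x.val with hd
    have hdx : d ∣ x.val := Nat.gcd_dvd_right _ _
    have hdN : d ∣ N := (Nat.gcd_dvd_left _ _).trans (Nat.gcd_dvd_left _ _)
    have hdy : d ∣ y.val := (Nat.gcd_dvd_left _ _).trans (Nat.gcd_dvd_right _ _)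
    have h1 : ((r.val * x.val + s.val * y.val : ℕ) : ZMod N) = ((1 : ℕ) : ZMod N) := by
      push_cast
      rw [ZMod.natCast_zmod_val, ZMod.natCast_zmod_val, ZMod.natCast_zmod_val,
        ZMod.natCast_zmod_val, h]
    rw [ZMod.natCast_eq_natCast_iff] at h1
    have h2 := h1.of_dvd hdN
    have h3 : r.val * x.val + s.val * y.val ≡ 0 [MOD d] :=
      (Nat.modEq_zero_iff_dvd).mpr (dvd_add (hdx.mul_left _) (hdy.mul_left _))
    exact (Nat.modEq_zero_iff_dvd).mp (h2.symm.trans h3)
  · intro h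
    -- Bezout
    have h1 : IsCoprime (x.val : ℤ) ((Nat.gcd N y.val : ℕ) : ℤ) :=
      (Nat.isCoprime_iff_coprime.mpr h).symm
    obtain ⟨r, s, hrs⟩ := h1
    have h2 := Nat.gcd_eq_gcd_ab N y.val
    refine ⟨(r : ZMod N), ((s * Nat.gcdB N y.val : ℤ) : ZMod N), ?_⟩
    have h3 : ((r * x.val + s * (N * Nat.gcdA N y.val + y.val * Nat.gcdB N y.val) : ℤ) : ZMod N)
        = ((1 : ℤ) : ZMod N) := by
      rw [← h2, hrs]
    push_cast at h3
    rw [ZMod.natCast_zmod_val, ZMod.natCast_zmod_val, ZMod.natCast_self] at h3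
    push_cast
    linear_combination h3

lemma card_coprime_range (d m : ℕ) :
    ((range (d * m)).filter (fun x => d.Coprime x)).card = m * Nat.totient d := by
  induction m with
  | zero => simp
  | succ m ih =>
    have h1 : range (d * (m + 1)) = range (d * m) ∪ Ico (d * m) (d * m + d) := by
      rw [range_eq_Ico, range_eq_Ico, Ico_union_Ico_eq_Ico (Nat.zero_le _) (by omega), mul_add,
        mul_one]
    rw [h1, filter_union, card_union_of_disjoint, ih, Nat.filter_coprime_Ico_eq_totient]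
    · ring
    · apply disjoint_filter_filter
      rw [range_eq_Ico]
      exact Ico_disjoint_Ico_consecutive _ _ _

open Classical in
lemma card_isCoprime_fst [NeZero N] (y : ZMod N) :
    ((univ : Finset (ZMod N)).filter (fun x => IsCoprime x y)).card =
      (N / Nat.gcd N y.val) * Nat.totient (Nat.gcd N y.val) := by
  rw [card_filter]
  have h1 : ∀ x : ZMod N, (if IsCoprime x y then 1 else 0) =
      (fun k : ℕ => if (Nat.gcd N y.val).Coprime k then 1 else 0) x.val := by
    intro x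
    simp only [isCoprime_iff_gcd]
  rw [Finset.sum_congr rfl (fun x _ => h1 x),
    sum_zmod (fun k : ℕ => if (Nat.gcd N y.val).Coprime k then 1 else 0), ← card_filter]
  have key := card_coprime_range (Nat.gcd N y.val) (N / Nat.gcd N y.val)
  rwa [Nat.mul_div_cancel' (Nat.gcd_dvd_left N y.val)] at key

/-- Sum over unimodular pairs of a function of the second coordinate. -/
theorem sum_Uf_snd [NeZero N] (G : ℕ → ℕ) :
    ∑ v ∈ Uf N, G v.2.val =
      ∑ k ∈ range N, G k * ((N / Nat.gcd N k) * Nat.totient (Nat.gcd N k)) := by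
  classical
  rw [Uf, Finset.sum_filter, ← Finset.univ_product_univ, Finset.sum_product_right]
  simp only
  rw [← sum_zmod (fun k => G k * ((N / Nat.gcd N k) * Nat.totient (Nat.gcd N k)))]
  refine Finset.sum_congr rfl fun y _ => ?_
  rw [← Finset.sum_filter, Finset.sum_const, card_isCoprime_fst, smul_eq_mul, mul_comm]

/-- Sum over `range N` of a function of the gcd with `N`. -/
theorem sum_gcd [NeZero N] (H : ℕ → ℕ) :
    ∑ k ∈ range N, H (Nat.gcd N k) = ∑ d ∈ N.divisors, Nat.totient (N / d) * H d := by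
  rw [← Finset.sum_fiberwise_of_maps_to (s := range N) (t := N.divisors)
    (g := fun k => Nat.gcd N k)]
  · refine Finset.sum_congr rfl fun d hd => ?_
    rw [Nat.totient_div_of_dvd (Nat.dvd_of_mem_divisors hd), Finset.sum_congr rfl
      (g := fun _ => H d), Finset.sum_const, smul_eq_mul]
    intro k hk
    rw [(Finset.mem_filter.mp hk).2]
  · intro k _
    rw [Nat.mem_divisors]
    exact ⟨Nat.gcd_dvd_left _ _, NeZero.ne N⟩

lemma gcd_sq (N k : ℕ) (hN : N ≠ 0) : Nat.gcd N (k ^ 2) =
    Nat.gcd N k * Nat.gcd (Nat.gcd N k) (N / Nat.gcd N k) := by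
  obtain ⟨d, a, b, hd, hab, ha, hb⟩ : ∃ d a b : ℕ, 0 < d ∧ Nat.Coprime a b ∧ N = a * d ∧
      k = b * d := by
    have hpos : 0 < Nat.gcd N k := Nat.gcd_pos_of_pos_left _ (Nat.pos_of_ne_zero hN)
    obtain ⟨a, b, h1, h2, h3⟩ := Nat.exists_coprime N k
    exact ⟨_, a, b, hpos, h1, h2, h3⟩
  subst ha hb
  have h1 : Nat.gcd (a * d) (b * d) = d := by
    rw [Nat.gcd_mul_right, hab, one_mul]
  rw [h1, Nat.mul_div_cancel _ hd]
  have h2 : (b * d) ^ 2 = (b ^ 2 * d) * d := by ring
  rw [h2, Nat.gcd_mul_right, mul_comm]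
  congr 1
  rw [Nat.gcd_comm d a]
  exact (Nat.Coprime.gcd_mul_left_cancel_right d (hab.pow_right 2).symm)

lemma card_mul_eq_zero [NeZero N] (c : ℕ) :
    ((range N).filter (fun j : ℕ => ((j : ZMod N) * (c : ZMod N) = 0))).card = Nat.gcd N c := by
  have hpos : 0 < Nat.gcd N c := Nat.gcd_pos_of_pos_left _ (NeZero.pos N)
  have hN := Nat.mul_div_cancel' (Nat.gcd_dvd_left N c)
  set g := Nat.gcd N c with hg
  set m := N / g with hm
  have hm0 : 0 < m := by
    rcases Nat.eq_zero_or_pos m with h | h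
    · rw [h, mul_zero] at hN; exact absurd hN.symm (NeZero.ne N)
    · exact h
  have h1 : ∀ j : ℕ, ((j : ZMod N) * (c : ZMod N) = 0) ↔ m ∣ j := by
    intro j
    rw [← Nat.cast_mul, ZMod.natCast_eq_zero_iff]
    constructor
    · intro h
      have h2 : g * m ∣ j * c := by rw [hN]; exact h
      have h3 : c = g * (c / g) := (Nat.mul_div_cancel' (Nat.gcd_dvd_right N c)).symm
      have h4 : Nat.Coprime m (c / g) := Nat.coprime_div_gcd_div_gcd hpos
      rw [h3, ← mul_assoc, mul_comm j g, mul_assoc] at h2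
      have h5 := Nat.dvd_of_mul_dvd_mul_left hpos h2
      exact h4.dvd_of_dvd_mul_right h5
    · rintro ⟨t, rfl⟩
      have h3 : c = g * (c / g) := (Nat.mul_div_cancel' (Nat.gcd_dvd_right N c)).symm
      rw [h3]
      refine ⟨t * (c / g), ?_⟩
      calc m * t * (g * (c / g)) = (g * m) * (t * (c / g)) := by ring
        _ = N * (t * (c / g)) := by rw [hN]
  simp only [h1]
  have h2 : (range N).filter (fun j => m ∣ j) = (range g).image (fun i => m * i) := by
    ext j
    rw [mem_filter, mem_range, mem_image]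
    constructor
    · rintro ⟨hj, t, rfl⟩
      refine ⟨t, ?_, rfl⟩
      rw [mem_range]
      rw [← hN, mul_comm g m] at hj
      exact Nat.lt_of_mul_lt_mul_left hj
    · rintro ⟨i, hi, rfl⟩
      rw [mem_range] at hi
      refine ⟨?_, dvd_mul_right _ _⟩
      rw [← hN, mul_comm g m]
      exact Nat.mul_lt_mul_of_pos_left hi hm0
  rw [h2, card_image_of_injective, card_range]
  intro a b h
  exact Nat.eq_of_mul_eq_mul_left hm0 h

lemma col_T_pow_mul (j : ℕ) (g : SL(2, ℤ)) : col N (ModularGroup.T ^ j * g) =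
    ((col N g).1 + (j : ZMod N) * (col N g).2, (col N g).2) := by
  have h : ((ModularGroup.T ^ j : SL(2, ℤ)) : Matrix (Fin 2) (Fin 2) ℤ) = !![1, (j : ℤ); 0, 1] := by
    have := ModularGroup.coe_T_zpow (j : ℤ)
    rwa [zpow_natCast] at this
  rw [col_mul, h]
  simp

lemma smul_T_pow_iff (j : ℕ) (g : SL(2, ℤ)) :
    ModularGroup.T ^ j • (g : X N) = (g : X N) ↔
      (j : ZMod N) * (((col N g).2.val ^ 2 : ℕ) : ZMod N) = 0 := by
  rcases Nat.eq_zero_or_pos N with rfl | h
  · rw [smul_mk_eq_iff, col_T_pow_mul]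
    have : (((col 0 g).2.val ^ 2 : ℕ) : ZMod 0) = (col 0 g).2 ^ 2 := by
      have h2 : ∀ z : ℤ, ((z.natAbs ^ 2 : ℕ) : ℤ) = z ^ 2 := by
        intro z
        push_cast
        exact sq_abs z
      exact h2 _
    rw [this]
    constructor <;> intro h <;> linear_combination h
  · have : NeZero N := ⟨h.ne'⟩
    rw [smul_mk_eq_iff, col_T_pow_mul]
    push_cast
    rw [ZMod.natCast_zmod_val]
    constructor <;> intro h <;> linear_combination h

/-- **Burnside sum** for the powers of `T`. -/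
theorem sum_card_fixedBy_T [NeZero N] :
    ∑ j ∈ range N, Nat.card (MulAction.fixedBy (X N) (ModularGroup.T ^ j)) = N * cuspCount N := by
  classical
  apply Nat.eq_of_mul_eq_mul_left (Nat.totient_pos.mpr (NeZero.pos N))
  rw [Finset.mul_sum]
  have h1 : ∀ j ∈ range N, Nat.totient N * Nat.card (MulAction.fixedBy (X N) (ModularGroup.T ^ j)) =
      ∑ v ∈ Uf N, if (j : ZMod N) * (((v : ZMod N × ZMod N).2.val ^ 2 : ℕ) : ZMod N) = 0
        then 1 else 0 := by
    intro j _
    rw [← card_filter]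
    exact (card_Uf_filter (N := N) (fun x => ModularGroup.T ^ j • x = x)
      (fun v => (j : ZMod N) * ((v.2.val ^ 2 : ℕ) : ZMod N) = 0)
      (fun g => smul_T_pow_iff j g)).symm
  rw [Finset.sum_congr rfl h1, Finset.sum_comm]
  have h2 : ∀ v ∈ Uf N, (∑ j ∈ range N,
      if (j : ZMod N) * (((v : ZMod N × ZMod N).2.val ^ 2 : ℕ) : ZMod N) = 0 then 1 else 0) =
      (fun k => Nat.gcd N (k ^ 2)) v.2.val := by
    intro v _
    rw [← card_filter, card_mul_eq_zero]
  rw [Finset.sum_congr rfl h2, sum_Uf_snd (fun k => Nat.gcd N (k ^ 2))]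
  have h3 : ∀ k ∈ range N, Nat.gcd N (k ^ 2) * (N / Nat.gcd N k * Nat.totient (Nat.gcd N k)) =
      (fun d => d * Nat.gcd d (N / d) * (N / d * Nat.totient d)) (Nat.gcd N k) := by
    intro k _
    rw [gcd_sq N k (NeZero.ne N)]
  rw [Finset.sum_congr rfl h3, sum_gcd (fun d => d * Nat.gcd d (N / d) * (N / d * Nat.totient d)),
    cuspCount, Finset.mul_sum, Finset.mul_sum]
  refine Finset.sum_congr rfl fun d hd => ?_
  have hd' := Nat.dvd_of_mem_divisors hd
  have h4 := Nat.totient_gcd_mul_totient_mul d (N / d)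
  rw [Nat.mul_div_cancel' hd'] at h4
  calc Nat.totient (N / d) * (d * Nat.gcd d (N / d) * (N / d * Nat.totient d))
      = (d * (N / d)) * (Nat.totient d * Nat.totient (N / d) * Nat.gcd d (N / d)) := by ring
    _ = N * (Nat.totient (Nat.gcd d (N / d)) * Nat.totient N) := by
        rw [← h4, Nat.mul_div_cancel' hd']
    _ = _ := by ring

end Fermat.Agent.Gamma0Comb
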