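import Fermat.Agent.Gamma0Comb.Basic

set_option autoImplicit false

/-!
# Fixed points of `S` and `ST` on `SL(2,ℤ) / Γ₀(N)`
-/

open CongruenceSubgroup Finset ModularCurve
open scoped MatrixGroups

namespace Fermat.Agent.Gamma0Comb

variable {N : ℕ}

lemma smul_mk_eq_iff (A g : SL(2, ℤ)) :
    A • (g : X N) = (g : X N) ↔
      (col N (A * g)).1 * (col N g).2 - (col N g).1 * (col N (A * g)).2 = 0 := by
  rw [← mk_eq_iff_cross]; rfl

lemma col_mul (A g : SL(2, ℤ)) : col N (A * g) =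
    (((A 0 0 : ℤ) : ZMod N) * (col N g).1 + ((A 0 1 : ℤ) : ZMod N) * (col N g).2,
     ((A 1 0 : ℤ) : ZMod N) * (col N g).1 + ((A 1 1 : ℤ) : ZMod N) * (col N g).2) := by
  rw [col, Matrix.SpecialLinearGroup.coe_mul, Matrix.mul_apply, Matrix.mul_apply,
    Fin.sum_univ_two, Fin.sum_univ_two]
  simp only [col_fst, col_snd]
  push_cast
  rfl

lemma col_S_mul (g : SL(2, ℤ)) : col N (ModularGroup.S * g) = (-(col N g).2, (col N g).1) := by
  rw [col_mul]; simp [ModularGroup.S]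

lemma col_ST_mul (g : SL(2, ℤ)) : col N (ModularGroup.S * ModularGroup.T * g) =
    (-(col N g).2, (col N g).1 + (col N g).2) := by
  rw [mul_assoc, col_S_mul, col_mul]
  simp [ModularGroup.T]

lemma smul_S_iff (g : SL(2, ℤ)) : ModularGroup.S • (g : X N) = (g : X N) ↔
    (col N g).1 ^ 2 + (col N g).2 ^ 2 = 0 := by
  rw [smul_mk_eq_iff, col_S_mul]
  constructor <;> intro h <;> linear_combination -h

lemma smul_ST_iff (g : SL(2, ℤ)) : (ModularGroup.S * ModularGroup.T) • (g : X N) = (g : X N) ↔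
    (col N g).1 ^ 2 + (col N g).1 * (col N g).2 + (col N g).2 ^ 2 = 0 := by
  rw [smul_mk_eq_iff, col_ST_mul]
  constructor <;> intro h <;> linear_combination -h

/-- Unimodular zeros of the form `x² + b xy + y²`. -/
lemma card_form [NeZero N] (b : ZMod N)
    [DecidablePred (fun v : ZMod N × ZMod N => v.1 ^ 2 + b * (v.1 * v.2) + v.2 ^ 2 = 0)] :
    ((Uf N).filter (fun v => v.1 ^ 2 + b * (v.1 * v.2) + v.2 ^ 2 = 0)).card =
      Nat.totient N * Nat.card {x : ZMod N // x ^ 2 + b * x + 1 = 0} := by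
  classical
  rw [← ZMod.card_units_eq_totient, Nat.card_eq_fintype_card, ← Fintype.card_prod,
    ← Finset.card_univ]
  symm
  apply Finset.card_bij (fun (ut : (ZMod N)ˣ × {x : ZMod N // x ^ 2 + b * x + 1 = 0}) _ =>
    ((ut.1 : ZMod N) * ut.2.1, (ut.1 : ZMod N)))
  · rintro ⟨u, t, ht⟩ _
    rw [Finset.mem_filter, mem_Uf]
    refine ⟨⟨0, ((u⁻¹ : (ZMod N)ˣ) : ZMod N), by simp⟩, ?_⟩
    · simp only
      linear_combination (u : ZMod N) ^ 2 * ht
  · rintro ⟨u, t, ht⟩ _ ⟨u', t', ht'⟩ _ h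
    simp only [Prod.mk.injEq] at h
    obtain ⟨h1, h2⟩ := h
    have hu : u = u' := Units.ext h2
    subst hu
    simp only [Prod.mk.injEq, Subtype.mk.injEq, true_and]
    exact (Units.mul_right_inj u).mp h1
  · rintro ⟨x, y⟩ hv
    rw [Finset.mem_filter, mem_Uf] at hv
    simp only at hv
    obtain ⟨hxy, h0⟩ := hv
    have hy : IsUnit y := by
      have h1 : IsCoprime (x ^ 2) y := hxy.pow_left
      have h2 : y ∣ x ^ 2 := ⟨-(b * x) - y, by linear_combination h0⟩
      obtain ⟨r, s, hrs⟩ := h1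
      rw [isUnit_iff_dvd_one, ← hrs]
      exact dvd_add (h2.mul_left _) (dvd_mul_left _ _)
    obtain ⟨u, rfl⟩ := hy
    refine ⟨(u, ⟨((u⁻¹ : (ZMod N)ˣ) : ZMod N) * x, ?_⟩), Finset.mem_univ _, ?_⟩
    · have h3 : ((u⁻¹ : (ZMod N)ˣ) : ZMod N) * (u : ZMod N) = 1 := Units.inv_mul u
      linear_combination (((u⁻¹ : (ZMod N)ˣ) : ZMod N)) ^ 2 * h0
        - (b * (((u⁻¹ : (ZMod N)ˣ) : ZMod N)) * x
          + ((u⁻¹ : (ZMod N)ˣ) : ZMod N) * (u : ZMod N) + 1) * h3
    · simp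

/-- The number of cosets fixed by `S`. -/
theorem card_fixedBy_S [NeZero N] :
    Nat.card (MulAction.fixedBy (X N) ModularGroup.S) = nuTwo N := by
  classical
  have h1 := card_Uf_filter (N := N) (fun x => ModularGroup.S • x = x)
    (fun v => v.1 ^ 2 + 0 * (v.1 * v.2) + v.2 ^ 2 = 0) (fun g => by
      rw [smul_S_iff]; simp)
  have h2 := card_form (N := N) 0
  rw [h1] at h2
  simp only [zero_mul, add_zero] at h2
  exact Nat.eq_of_mul_eq_mul_left (Nat.totient_pos.mpr (NeZero.pos N)) h2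

/-- The number of cosets fixed by `ST`. -/
theorem card_fixedBy_ST [NeZero N] :
    Nat.card (MulAction.fixedBy (X N) (ModularGroup.S * ModularGroup.T)) = nuThree N := by
  classical
  have h1 := card_Uf_filter (N := N) (fun x => (ModularGroup.S * ModularGroup.T) • x = x)
    (fun v => v.1 ^ 2 + 1 * (v.1 * v.2) + v.2 ^ 2 = 0) (fun g => by
      rw [smul_ST_iff]; simp)
  have h2 := card_form (N := N) 1
  rw [h1] at h2
  simp only [one_mul] at h2
  exact Nat.eq_of_mul_eq_mul_left (Nat.totient_pos.mpr (NeZero.pos N)) h2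

end Fermat.Agent.Gamma0Comb
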