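import Fermat.Agent.Gamma0Comb.Counts

set_option autoImplicit false

/-!
# The index of `Γ₀(N)` is `ψ(N)`
-/

open CongruenceSubgroup Finset ModularCurve
open scoped MatrixGroups

namespace Fermat.Agent.Gamma0Comb

/-- Euler's totient as an arithmetic function. -/
def phiAF : ArithmeticFunction ℕ := ⟨Nat.totient, by simp⟩

@[simp] lemma phiAF_apply (n : ℕ) : phiAF n = Nat.totient n := rfl

lemma mult_phiAF : phiAF.IsMultiplicative :=
  ⟨by simp, fun h => Nat.totient_mul h⟩

open Classical in
/-- The indicator function of squarefree numbers. -/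
noncomputable def sqfAF : ArithmeticFunction ℕ := ⟨fun n => if Squarefree n then 1 else 0, by simp⟩

open Classical in
@[simp] lemma sqfAF_apply (n : ℕ) : sqfAF n = if Squarefree n then 1 else 0 := rfl

lemma mult_sqfAF : sqfAF.IsMultiplicative := by
  refine ⟨by simp, fun {m n} h => ?_⟩
  simp only [sqfAF_apply, Nat.squarefree_mul h]
  by_cases h1 : Squarefree m <;> by_cases h2 : Squarefree n <;> simp [h1, h2]

/-- The Dedekind psi function as an arithmetic function. -/
noncomputable def psiAF : ArithmeticFunction ℕ := sqfAF * ArithmeticFunction.id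

lemma mult_psiAF : psiAF.IsMultiplicative := mult_sqfAF.mul ArithmeticFunction.isMultiplicative_id

lemma psiAF_apply (n : ℕ) : psiAF n = dedekindPsi n := by
  classical
  rw [psiAF, ArithmeticFunction.mul_apply, dedekindPsi,
    Nat.sum_divisorsAntidiagonal (fun a b => sqfAF a * ArithmeticFunction.id b), Finset.sum_filter]
  refine Finset.sum_congr rfl fun d _ => ?_
  simp [ite_mul]

/-- The arithmetic function `(φ · id) * φ`. -/
noncomputable def jordAF : ArithmeticFunction ℕ :=
  (phiAF.pmul ArithmeticFunction.id) * phiAF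

lemma mult_jordAF : jordAF.IsMultiplicative :=
  (mult_phiAF.pmul ArithmeticFunction.isMultiplicative_id).mul mult_phiAF

lemma jordAF_apply (n : ℕ) : jordAF n =
    ∑ d ∈ n.divisors, Nat.totient (n / d) * (n / d * Nat.totient d) := by
  rw [jordAF, ArithmeticFunction.mul_apply,
    Nat.sum_divisorsAntidiagonal' (fun a b => (phiAF.pmul ArithmeticFunction.id) a * phiAF b)]
  refine Finset.sum_congr rfl fun d _ => ?_
  simp [mul_assoc]

/-- The value of the convolution at a prime power. -/
def jordS (p k : ℕ) : ℕ :=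
  ∑ i ∈ range (k + 1), Nat.totient (p ^ (k - i)) * (p ^ (k - i) * Nat.totient (p ^ i))

lemma jordAF_prime_pow {p : ℕ} (hp : p.Prime) (k : ℕ) : jordAF (p ^ k) = jordS p k := by
  rw [jordAF_apply, Nat.sum_divisors_prime_pow hp, jordS]
  refine Finset.sum_congr rfl fun i hi => ?_
  rw [Finset.mem_range] at hi
  rw [Nat.pow_div (by omega) hp.pos]

lemma totient_pow_succ {q : ℕ} (hp : (q + 1).Prime) (k : ℕ) :
    Nat.totient ((q + 1) ^ (k + 1)) = (q + 1) ^ k * q := by
  rw [Nat.totient_prime_pow_succ hp]; simp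

lemma jordS_succ {q : ℕ} (hp : (q + 1).Prime) (k : ℕ) :
    jordS (q + 1) (k + 1) + Nat.totient ((q + 1) ^ k) * (q + 1) ^ k =
      Nat.totient ((q + 1) ^ (k + 1)) * (q + 1) ^ (k + 1) + (q + 1) * jordS (q + 1) k := by
  rw [jordS, jordS, Finset.sum_range_succ', Finset.sum_range_succ', Finset.sum_range_succ',
    mul_add, Finset.mul_sum]
  have h1 : ∑ i ∈ range k, Nat.totient ((q + 1) ^ (k + 1 - (i + 1 + 1))) *
      ((q + 1) ^ (k + 1 - (i + 1 + 1)) * Nat.totient ((q + 1) ^ (i + 1 + 1))) =
      ∑ i ∈ range k, (q + 1) * (Nat.totient ((q + 1) ^ (k - (i + 1))) *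
        ((q + 1) ^ (k - (i + 1)) * Nat.totient ((q + 1) ^ (i + 1)))) := by
    refine Finset.sum_congr rfl fun i _ => ?_
    have h2 : k + 1 - (i + 1 + 1) = k - (i + 1) := by omega
    rw [h2, totient_pow_succ hp, totient_pow_succ hp]
    ring
  rw [h1]
  have h3 : k + 1 - (0 + 1) = k := by omega
  have h4 : Nat.totient ((q + 1) ^ (0 + 1)) = q := by
    rw [totient_pow_succ hp]; simp
  rw [h3, h4]
  simp only [pow_zero, Nat.totient_one, mul_one, Nat.sub_zero]
  ring

lemma jordS_eq {q : ℕ} (hp : (q + 1).Prime) (k : ℕ) :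
    jordS (q + 1) (k + 1) =
      Nat.totient ((q + 1) ^ (k + 1)) * ((q + 1) ^ (k + 1) + (q + 1) ^ k) := by
  induction k with
  | zero =>
    have h1 := jordS_succ hp 0
    have h2 : jordS (q + 1) 0 = 1 := by simp [jordS]
    rw [h2] at h1
    have h4 : Nat.totient ((q + 1) ^ (0 + 1)) = q := by
      rw [totient_pow_succ hp]; simp
    rw [h4] at h1 ⊢
    simp only [zero_add, pow_zero, Nat.totient_one, mul_one, pow_one] at h1 ⊢
    nlinarith
  | succ k ih =>
    have h1 := jordS_succ hp (k + 1)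
    rw [ih] at h1
    rw [totient_pow_succ hp, totient_pow_succ hp] at h1
    rw [totient_pow_succ hp]
    have h2 : ∀ a b c d : ℕ, a + b = c → c = d + b → a = d := by intro a b c d; omega
    refine h2 _ _ _ _ h1 ?_
    ring

lemma psi_prime_pow_succ {p : ℕ} (hp : p.Prime) (k : ℕ) :
    dedekindPsi (p ^ (k + 1)) = p ^ (k + 1) + p ^ k := by
  rw [dedekindPsi, Finset.sum_filter, Nat.sum_divisors_prime_pow hp, Finset.sum_range_succ',
    Finset.sum_range_succ']
  have h1 : ∀ i ∈ range k, (if Squarefree (p ^ (i + 1 + 1)) then p ^ (k + 1) / p ^ (i + 1 + 1)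
      else 0) = 0 := by
    intro i _
    rw [if_neg]
    intro h
    have h2 : p * p ∣ p ^ (i + 1 + 1) := ⟨p ^ i, by ring⟩
    exact hp.not_isUnit (h p h2)
  rw [Finset.sum_congr rfl h1, Finset.sum_const_zero, zero_add]
  have h3 : Squarefree (p ^ (0 + 1)) := by simpa using hp.prime.squarefree
  rw [if_pos h3, if_pos (by simp)]
  have h4 : p ^ (k + 1) / p ^ (0 + 1) = p ^ k := by
    rw [Nat.pow_div (by omega) hp.pos]; simp
  rw [h4]
  simp [add_comm]

/-- The key identity `∑_{d ∣ N} φ(N/d) (N/d) φ(d) = φ(N) ψ(N)`. -/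
theorem sum_totient_identity (N : ℕ) :
    ∑ d ∈ N.divisors, Nat.totient (N / d) * (N / d * Nat.totient d) =
      Nat.totient N * dedekindPsi N := by
  rw [← jordAF_apply, ← psiAF_apply, ← phiAF_apply, ← ArithmeticFunction.pmul_apply]
  congr 1
  rw [ArithmeticFunction.IsMultiplicative.eq_iff_eq_on_prime_powers _ mult_jordAF _
    (mult_phiAF.pmul mult_psiAF)]
  intro p i hp
  rw [jordAF_prime_pow hp, ArithmeticFunction.pmul_apply, psiAF_apply, phiAF_apply]
  obtain ⟨q, rfl⟩ : ∃ q, p = q + 1 := ⟨p - 1, by have := hp.pos; omega⟩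
  rcases i with _ | k
  · simp [jordS]
  · rw [jordS_eq hp, psi_prime_pow_succ hp]

variable (N : ℕ) [NeZero N]

/-- The number of unimodular pairs modulo `N`. -/
theorem card_Uf : (Uf N).card = Nat.totient N * dedekindPsi N := by
  have h1 := sum_Uf_snd (N := N) (fun _ => 1)
  rw [Finset.sum_const, smul_eq_mul, mul_one] at h1
  rw [h1, ← sum_totient_identity]
  simp only [one_mul]
  exact sum_gcd (N := N) (fun d => N / d * Nat.totient d)

/-- The number of cosets of `Γ₀(N)`. -/
theorem card_X : Nat.card (SL(2, ℤ) ⧸ Gamma0 N) = dedekindPsi N := by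
  have h1 := sum_Uf (N := N) (fun _ => 1) (fun _ => 1) (fun _ => rfl)
  rw [Finset.sum_const, Finset.sum_const, smul_eq_mul, smul_eq_mul, mul_one, mul_one, card_Uf,
    Finset.card_univ] at h1
  rw [Nat.card_eq_fintype_card]
  exact (Nat.eq_of_mul_eq_mul_left (Nat.totient_pos.mpr (NeZero.pos N)) h1).symm

theorem index_Gamma0 : (Gamma0 N).index = dedekindPsi N := card_X N

end Fermat.Agent.Gamma0Comb
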